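/-
M59 / Sink B, leaf 4 [TOR-SURJ], cell [DELTA0] (helper4).  Prefix `m59fp_`.

FINITENESS OF THE `σ^e`-FIXED CLASSES OF `Pic⁰(FF_A(N))`, PLUG-IN FORM (`Z = 0`).

`A` a valuation subring of `ℚ̄` over `ℓ ∤ N`, `kA` its residue field,
`FF = modularFunctionFieldFullC kA N` (`= s44e_FF A N = lg_F kA N`), `σ = ca_aut kA N φ` the
coefficientwise Frobenius (`φ c = c ^ ℓ`).  Everything is an instance of helper6's `fcl_*`
(S35/FixedClasses: Lang + Riemann + finiteness of stable effective divisors) and helper13's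
`s35b_exists_exponent` (S35/AbelFree), `jcr_isSepGen` (JT3/S18/ConstRed):

* `m59fp_pow_exponent_gen` / `m59fp_pow_exponent` : the `σ ^ e`-fixed classes (`e ≥ 1`) of
                            `JZeroC k N` are killed by one `h ≥ 1`;
* `m59fp_ppow_kills`      : (groups) `h • c = 0`, `p ^ n • c = 0` ⟹ `p ^ v_p(h) • c = 0`;
* `m59fp_pow_ppart`       : ONE exponent `a` with `p ^ a • c = 0` for every `σ ^ e`-fixed class `c` of
                            `p`-power order;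
* `m59fp_zero_of_div`     : with that `a`: a class `p ^ a • c'`, `c'` `σ ^ e`-fixed of `p`-power
                            order, is `0`;
* `m59fp_system_zero_abs`, `m59fp_system_zero` : a `p`-compatible system of `σ ^ e`-fixed classes of
                            `p`-power order is `0` (`T_p(JZeroC kA N)^{σ^e = 1} = 0`).
-/
import Mathlib
import Fermat.Agent.S35.AbelInst

set_option autoImplicit false
set_option linter.unusedSectionVars false
set_option linter.unusedVariables false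

namespace Fermat.Agent.M59

open AlgebraicCurve ModularCurve Fermat.Agent.S35 Fermat.Agent.JT3

section general

variable {k : Type*} [Field k] (N : ℕ) [NeZero N] (φ : k ≃+* k)
  {ℓ : ℕ} [hℓ : Fact ℓ.Prime] [CharP k ℓ] [IsAlgClosed k]

set_option synthInstance.maxHeartbeats 400000 in
/-- the classes of `Pic⁰(F̃_N / k)` fixed by a power `σ ^ e` (`e ≥ 1`) of the coefficientwise
Frobenius are killed by one positive integer. -/
theorem m59fp_pow_exponent_gen (hℓN : ¬ ℓ ∣ N) (ρ : ↥(GaloisRep.ratLocalizedAt ℓ) →+* k)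
    (hφ : ∀ c : k, φ c = c ^ ℓ) (e : ℕ) (he : 1 ≤ e) :
    ∃ h : ℕ, 1 ≤ h ∧ ∀ c : JZeroC k N, (ca_aut k N φ ^ e) • c = c → h • c = 0 := by
  have hQ : 2 ≤ ℓ ^ e := by
    calc 2 ≤ ℓ := hℓ.out.two_le
      _ = ℓ ^ 1 := (pow_one ℓ).symm
      _ ≤ ℓ ^ e := Nat.pow_le_pow_right hℓ.out.pos he
  exact s35b_exists_exponent (jcr_isSepGen (k := k) N hℓN ρ) (ca_aut k N φ ^ e) (ℓ ^ e) hQ
    (fun c => fcl_pow_baseAut (ca_aut k N φ) ℓ (s35b_ca_baseAut N φ hφ) e c)
    (fcl_pow_smul_x (ca_aut k N φ) (s35b_ca_smul_j N φ) e)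

end general

/-! ### pure group theory: a divisible system in a group of finite exponent -/

section grp

variable {G : Type*} [AddCommGroup G]

/-- `h • c = 0` and `p ^ n • c = 0` ⟹ `p ^ v_p(h) • c = 0`. -/
theorem m59fp_ppow_kills {p : ℕ} (hp : p.Prime) {h n : ℕ} (hh : h ≠ 0) {c : G}
    (h1 : h • c = 0) (h2 : p ^ n • c = 0) : p ^ (padicValNat p h) • c = 0 := by
  have : Fact p.Prime := ⟨hp⟩
  -- Bezout
  have hg : Nat.gcd h (p ^ n) • c = 0 := by
    have hb := Nat.gcd_eq_gcd_ab h (p ^ n)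
    have h3 : ((Nat.gcd h (p ^ n) : ℕ) : ℤ) • c = 0 := by
      rw [hb, add_smul, mul_comm (h : ℤ), mul_comm ((p ^ n : ℕ) : ℤ), mul_smul, mul_smul,
        natCast_zsmul, natCast_zsmul, h1, h2, smul_zero, smul_zero, add_zero]
    rwa [natCast_zsmul] at h3
  obtain ⟨j, hjn, hj⟩ := (Nat.dvd_prime_pow hp).mp (Nat.gcd_dvd_right h (p ^ n))
  have hjh : p ^ j ∣ h := hj ▸ Nat.gcd_dvd_left h (p ^ n)
  have hja : j ≤ padicValNat p h := (padicValNat_dvd_iff_le hh).mp hjh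
  obtain ⟨t, ht⟩ := Nat.exists_eq_add_of_le hja
  rw [ht, pow_add, mul_comm, mul_smul, ← hj, hg, smul_zero]

/-- a `p`-compatible system of classes of `p`-power order in a subset killed by `h ≥ 1` is `0`. -/
theorem m59fp_system_zero_abs {p : ℕ} (hp : p.Prime) {h : ℕ} (hh : 1 ≤ h) (c : ℕ → G)
    (hkill : ∀ n, h • c n = 0) (hcompat : ∀ n, p • c (n + 1) = c n)
    (htor : ∀ n, ∃ m : ℕ, p ^ m • c n = 0) (n : ℕ) : c n = 0 := by
  have hiter : ∀ a n : ℕ, p ^ a • c (n + a) = c n := by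
    intro a
    induction a with
    | zero => intro n; simp
    | succ a ih =>
      intro n
      rw [pow_succ, mul_smul, ← add_assoc, hcompat, ih]
  obtain ⟨m, hm⟩ := htor (n + padicValNat p h)
  rw [← hiter (padicValNat p h) n]
  exact m59fp_ppow_kills hp (by omega) (hkill _) hm

end grp

/-! ### the instance over the residue field of a valuation ring of `ℚ̄` -/

section residue

variable (N : ℕ) [NeZero N] {ℓ : ℕ} [hℓ : Fact ℓ.Prime]
  (A : ValuationSubring (AlgebraicClosure ℚ))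

local notation "kA" => IsLocalRing.ResidueField A

set_option synthInstance.maxHeartbeats 400000 in
/-- **the `σ ^ e`-fixed classes of `JZeroC kA N` are killed by one positive integer** (`ℓ ∤ N`,
`A` over `ℓ`, `σ` the coefficientwise `ℓ`-Frobenius, `e ≥ 1`). -/
theorem m59fp_pow_exponent (hℓN : ¬ ℓ ∣ N) (hA : A.LiesOverPrime ℓ) (φ : kA ≃+* kA)
    (hφ : ∀ c : kA, φ c = c ^ ℓ) (e : ℕ) (he : 1 ≤ e) :
    ∃ h : ℕ, 1 ≤ h ∧ ∀ c : JZeroC kA N, (ca_aut kA N φ ^ e) • c = c → h • c = 0 := by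
  have := jcr_charP A hA
  have := jcr_isAlgClosed A
  exact m59fp_pow_exponent_gen N φ hℓN (jcr_rho A hA) hφ e he

/-- ONE exponent `a` such that `p ^ a` kills every `σ ^ e`-fixed class of `p`-power order. -/
theorem m59fp_pow_ppart (hℓN : ¬ ℓ ∣ N) (hA : A.LiesOverPrime ℓ) (φ : kA ≃+* kA)
    (hφ : ∀ c : kA, φ c = c ^ ℓ) (e : ℕ) (he : 1 ≤ e) {p : ℕ} (hp : p.Prime) :
    ∃ a : ℕ, ∀ c : JZeroC kA N, (ca_aut kA N φ ^ e) • c = c → (∃ m : ℕ, p ^ m • c = 0) →
      p ^ a • c = 0 := by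
  obtain ⟨h, hh, hk⟩ := m59fp_pow_exponent N A hℓN hA φ hφ e he
  refine ⟨padicValNat p h, fun c hc hm => ?_⟩
  obtain ⟨m, hm⟩ := hm
  exact m59fp_ppow_kills hp (by omega) (hk c hc) hm

/-- with the exponent `a` of `m59fp_pow_ppart`: `p ^ a • c'` is `0` for `c'` `σ ^ e`-fixed of `p`-power
order (so a `σ ^ e`-fixed class of `p`-power order which is `p ^ a`-divisible BY SUCH A CLASS is `0`). -/
theorem m59fp_zero_of_div (hℓN : ¬ ℓ ∣ N) (hA : A.LiesOverPrime ℓ) (φ : kA ≃+* kA)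
    (hφ : ∀ c : kA, φ c = c ^ ℓ) (e : ℕ) (he : 1 ≤ e) {p : ℕ} (hp : p.Prime) :
    ∃ a : ℕ, ∀ c c' : JZeroC kA N, (ca_aut kA N φ ^ e) • c' = c' → (∃ m : ℕ, p ^ m • c' = 0) →
      ∀ b : ℕ, a ≤ b → c = p ^ b • c' → c = 0 := by
  obtain ⟨a, ha⟩ := m59fp_pow_ppart N A hℓN hA φ hφ e he hp
  refine ⟨a, fun c c' hc' hm b hab hcc => ?_⟩
  obtain ⟨t, rfl⟩ := Nat.exists_eq_add_of_le hab
  rw [hcc, pow_add, mul_comm, mul_smul, ha c' hc' hm, smul_zero]

/-- **`T_p(JZeroC kA N)^{σ^e = 1} = 0`**: a `p`-compatible system of `σ ^ e`-fixed classes of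
`p`-power order vanishes identically. -/
theorem m59fp_system_zero (hℓN : ¬ ℓ ∣ N) (hA : A.LiesOverPrime ℓ) (φ : kA ≃+* kA)
    (hφ : ∀ c : kA, φ c = c ^ ℓ) (e : ℕ) (he : 1 ≤ e) {p : ℕ} (hp : p.Prime)
    (c : ℕ → JZeroC kA N) (hfix : ∀ n, (ca_aut kA N φ ^ e) • c n = c n)
    (hcompat : ∀ n, p • c (n + 1) = c n) (htor : ∀ n, ∃ m : ℕ, p ^ m • c n = 0) (n : ℕ) :
    c n = 0 := by
  obtain ⟨h, hh, hk⟩ := m59fp_pow_exponent N A hℓN hA φ hφ e he
  exact m59fp_system_zero_abs hp hh c (fun n => hk (c n) (hfix n)) hcompat htor n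

end residue

end Fermat.Agent.M59
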