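/-
M59 / Sink B, leaf 4 [TOR-SURJ], cell [NORM-RED] = (v) of [DELTA0] (helper4).  Prefix `m59fp_`.

THE TWO NORM-REDUCTION IDENTITIES AT LEVEL `(M, M q)` OVER `ℚ̄`, IN ONE STATEMENT.

`A` a place of `ℚ̄` over `q`, `q ∤ M` ANY prime, `F ∈ F̄_{M q}` with `F` and `W̄ F` Gauss-bounded over `A`
(`W̄ = ssm_al_Wbar M q` the Atkin–Lehner involution), `N_α`, `N_β` the norms along
`heckeAlphaBar`, `heckeBetaBar : F̄_M → F̄_{M q}`, `red = gq_res ↥A ℚ̄`, `Fr` the coefficientwise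
`q`-Frobenius of `kA((X))`:

  `red (N_α F) = red F · Fr (red (W̄ F))`,     `red (N_β F) = Fr (red F) · red (W̄ F)`.

Both are main's `rdn_gf_norm_res` (S35/RedN/InstFull, the two-valuations lemma) transported to `ℚ̄` by
helper10's `m59nf_norm_res` (M59/Strict/NFNorm), plus `N_β F = N_α (W̄ F)` (`s44dqn_norm_Wbar`) and
`W̄ W̄ = id`.
-/
import Mathlib
import Fermat.Agent.M59.Strict.NFNorm
import Fermat.Agent.S44.DQbar.NormPow

set_option autoImplicit false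
set_option linter.unusedSectionVars false
set_option linter.unusedVariables false

noncomputable section

namespace Fermat.Agent.M59

open ModularCurve AlgebraicCurve IntermediateField IsLocalRing
open Fermat.Agent.JT3 Fermat.Agent.S24 Fermat.Agent.SS Fermat.Agent.S35 Fermat.Agent.S44

local notation "Qb" => AlgebraicClosure ℚ

variable (M q : ℕ) [NeZero M] [NeZero q] (hq : q.Prime) (hqM : ¬ q ∣ M)
  (A : ValuationSubring Qb) (hA : A.LiesOverPrime q)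

include hA in
/-- **[NORM-RED] at level `(M, M q)` over `ℚ̄`, both norms.** -/
theorem m59fp_normRed (τ : ResidueField ↥A →+* ResidueField ↥A) (hτ : ∀ x, τ x = x ^ q)
    (F : Fbar (M * q)) (h1 : gq_IsBdd ↥A Qb (F : LaurentSeries Qb))
    (h2 : gq_IsBdd ↥A Qb ((ssm_al_Wbar M q hq hqM F : Fbar (M * q)) : LaurentSeries Qb)) :
    (∃ hN : gq_IsBdd ↥A Qb
        ((s35pe_normAlong (heckeAlphaBar Qb M q) F : Fbar M) : LaurentSeries Qb),
      gq_res ↥A Qb ⟨_, hN⟩ = gq_res ↥A Qb ⟨_, h1⟩ * coeffMap τ (gq_res ↥A Qb ⟨_, h2⟩)) ∧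
    ∃ hN : gq_IsBdd ↥A Qb
        ((s35pe_normAlong (heckeBetaBar Qb M q) F : Fbar M) : LaurentSeries Qb),
      gq_res ↥A Qb ⟨_, hN⟩ = coeffMap τ (gq_res ↥A Qb ⟨_, h1⟩) * gq_res ↥A Qb ⟨_, h2⟩ := by
  refine ⟨m59nf_norm_res M q hq hqM A hA τ hτ F h1 h2, ?_⟩
  have hWW : ssm_al_Wbar M q hq hqM (ssm_al_Wbar M q hq hqM F) = F :=
    s44dqn_Wbar_Wbar M q hq hqM F
  have h1' : gq_IsBdd ↥A Qb ((ssm_al_Wbar M q hq hqM (ssm_al_Wbar M q hq hqM F) : Fbar (M * q)) :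
      LaurentSeries Qb) := by rw [hWW]; exact h1
  obtain ⟨hN, eN⟩ := m59nf_norm_res M q hq hqM A hA τ hτ (ssm_al_Wbar M q hq hqM F) h2 h1'
  have hβ : s35pe_normAlong (heckeAlphaBar Qb M q) (ssm_al_Wbar M q hq hqM F) =
      s35pe_normAlong (heckeBetaBar Qb M q) F := s44dqn_norm_Wbar M q hq hqM F
  have hN' : gq_IsBdd ↥A Qb
      ((s35pe_normAlong (heckeBetaBar Qb M q) F : Fbar M) : LaurentSeries Qb) := by
    rw [← hβ]; exact hN
  refine ⟨hN', ?_⟩
  rw [m59nf_res_congr (congrArg (fun z : Fbar M => (z : LaurentSeries Qb)) hβ.symm) hN' hN, eN,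
    m59nf_res_congr (congrArg (fun z : Fbar (M * q) => (z : LaurentSeries Qb)) hWW) h1' h1,
    mul_comm]

end Fermat.Agent.M59
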