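/-
M59 / Sink B, leaf 4 [TOR-SURJ], cell [DELTA0], part [DELTA-REL] (helper4).  Prefix `m59fp_`.

THE TWO RELATIONS BETWEEN `δ(z)` AND `δ(W z)` FOR A CLASS KILLED BY BOTH DEGENERACY MAPS.

`A` a place of `ℚ̄` over `q`, `q ∤ M`, `z ∈ J₀(M q)[m]` with `(α_q)_* z = 0 = (β_q)_* z`, and `m ∣ div f̄_z`,
`m ∣ div f̄_{W z}` (i.e. `ν = 0` at `z` and at `W z`, so that `δ = twfr_delta` is the class of `(1/m) div f̄`).
With `σ = ca_aut kA M φ` the coefficientwise `q`-Frobenius of `FF_M(kA)`: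

  `δ(z) + σ • δ(W z) = 0`,   `σ • δ(z) + δ(W z) = 0`,   hence `σ² • δ(z) = δ(z)`.

Proof: a representative `f` of `z`, Gauss-normalised at both vertical valuations (helper10's
`m59nf_normalise`), `N_α f = c g^m`, `N_β f = c' g'^m` (`s35k_push_kummer`), the two norm-reduction
identities `m59fp_normRed`, and division of divisors by `m`.
-/
import Mathlib
import Fermat.Agent.M59.SinkB.FinPic.NormRed
import Fermat.Agent.M59.SinkB.FinPic.Main
import Fermat.Agent.M59.Strict.NFNrm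
import Fermat.Agent.M59.Strict.NFRep
import Fermat.Agent.TW.Easy.Res.Main
import Fermat.Agent.TW.Easy.WTwo

set_option autoImplicit false
set_option linter.unusedSectionVars false
set_option linter.unusedVariables false
set_option linter.style.haveILetI false
set_option maxHeartbeats 1000000
set_option synthInstance.maxHeartbeats 400000

noncomputable section

namespace Fermat.Agent.M59

open ModularCurve AlgebraicCurve IntermediateField IsLocalRing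
open Fermat.Agent.JT3 Fermat.Agent.S24 Fermat.Agent.SS Fermat.Agent.S35 Fermat.Agent.S44
  Fermat.Agent.TW Fermat.Agent.S33

local notation "Qb" => AlgebraicClosure ℚ

section Red

variable (A : ValuationSubring Qb) {q : ℕ} [hq : Fact q.Prime] (hA : A.LiesOverPrime q)
  (M : ℕ) [NeZero M] [NeZero q] [NeZero (M * q)] (hqM : ¬ q ∣ M)

include hA hqM in
/-- a Gauss unit of `F̄_M` (good level) has a nonzero reduction in `FF_M(kA)`. -/
theorem m59fp_exists_redOf_good {g : Fbar M}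
    (h1 : g ∈ s44pg_W A hA hq.out.ne_zero M) (h2 : g⁻¹ ∈ s44pg_W A hA hq.out.ne_zero M)
    (hg0 : g ≠ 0) : ∃ gb : s44e_FF A M, gb ≠ 0 ∧ s44e_RedOf A M g gb := by
  have hb : gq_IsBdd ↥A Qb (g : LaurentSeries Qb) := h1
  have hbi : gq_IsBdd ↥A Qb ((g : LaurentSeries Qb))⁻¹ := by
    have : gq_IsBdd ↥A Qb ((g⁻¹ : Fbar M) : LaurentSeries Qb) := h2
    rwa [IntermediateField.coe_inv] at this
  have hg0' : (g : LaurentSeries Qb) ≠ 0 := fun h => hg0 (Subtype.ext h)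
  have hne := gq_res_ne_zero_of_inv (⟨(g : LaurentSeries Qb), hb⟩ : ↥(gq_bddSubring ↥A Qb)) hbi hg0'
  have hmemL : (g : LaurentSeries Qb) ∈ modularFunctionFieldBar (M * q) := by
    rw [← coe_heckeAlphaBar (L := Qb) (N := M) (ℓ := q) g]
    exact (heckeAlphaBar Qb M q g).2
  refine ⟨⟨_, s44rd_res_mem A hA M hqM hmemL hb⟩, ?_, hb, rfl⟩
  intro h0
  exact hne (congrArg Subtype.val h0)

end Red


/-! ### the abstract class relation -/

section Abs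

universe u v
variable {K : Type u} {F : Type v} [Field K] [Field F] [Algebra K F]

/-- `u₁ · σ(u₂) = c · g^m`, `m D_i = div u_i` ⟹ `[D₁] + σ [D₂] = 0`. -/
theorem m59fp_class_rel (σ : SemilinearAut K F) {m : ℕ} (hm : 0 < m) {u₁ u₂ g : F} (c : K)
    (hu₁ : u₁ ≠ 0) (hu₂ : u₂ ≠ 0) (hg : g ≠ 0) (hc : c ≠ 0)
    (D₁ D₂ : Divisor.degZero (K := K) (F := F))
    (hD₁ : ∀ v : Place K F, (m : ℤ) * (D₁ : Divisor K F) v = v.ord u₁)
    (hD₂ : ∀ v : Place K F, (m : ℤ) * (D₂ : Divisor K F) v = v.ord u₂)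
    (hrel : u₁ * (σ • u₂) = algebraMap K F c * g ^ m) :
    Pic0.mk D₁ + σ • Pic0.mk D₂ = 0 := by
  rw [SemilinearAut.pic0_smul_mk, ← Pic0.mk_add]
  refine (QuotientAddGroup.eq_zero_iff _).2 ?_
  rw [AddSubgroup.mem_addSubgroupOf]
  refine ⟨g, hg, fun v => ?_⟩
  have hm0 : (m : ℤ) ≠ 0 := by exact_mod_cast hm.ne'
  have hσu₂ : σ • u₂ ≠ 0 := fun h0 => hu₂ ((smul_eq_zero_iff_eq σ).mp h0)
  have hcF : algebraMap K F c ≠ 0 := (_root_.map_ne_zero _).2 hc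
  have h1 : v.ord (σ • u₂) = (σ⁻¹ • v).ord u₂ := by
    have := SemilinearAut.ord_smul σ (σ⁻¹ • v) u₂
    rwa [smul_inv_smul] at this
  have h2 := congrArg v.ord hrel
  rw [v.ord_mul hu₁ hσu₂, v.ord_mul hcF (pow_ne_zero _ hg), hw_ord_algebraMap, zero_add,
    ← zpow_natCast, v.ord_zpow, h1, ← hD₁ v, ← hD₂ (σ⁻¹ • v)] at h2
  rw [AddSubgroup.coe_add, Finsupp.add_apply, SemilinearAut.coe_degZeroSMulHom,
    SemilinearAut.divisor_smul_apply]
  apply mul_left_cancel₀ hm0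
  rw [← h2]
  ring

end Abs


/-! ### reduction of `c · g^m` at the good level -/

section RedPow

variable (A : ValuationSubring Qb) {q : ℕ} [hq : Fact q.Prime] (hA : A.LiesOverPrime q)
  (M : ℕ) [NeZero M] [NeZero q] [NeZero (M * q)] (hqM : ¬ q ∣ M) {m : ℕ}

include hA hqM in
/-- if `x = c · g^m` in `F̄_M` has the nonzero reduction `xb`, then `xb = c̄ · ḡ^m`. -/
theorem m59fp_red_const_pow {x : Fbar M} {xb : s44e_FF A M} (hx : s44e_RedOf A M x xb)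
    (hxb : xb ≠ 0) {c : Qb} {g : Fbar M} (hg : g ≠ 0)
    (e : x = algebraMap Qb (Fbar M) c * g ^ m) :
    ∃ (cb : s44e_kA A) (gb : s44e_FF A M), cb ≠ 0 ∧ gb ≠ 0 ∧
      xb = algebraMap (s44e_kA A) (s44e_FF A M) cb * gb ^ m := by
  obtain ⟨d, hd0, hu1, hu2⟩ := s44pg_nrm A hA hq.out.ne_zero M hg
  set g1 := algebraMap Qb (Fbar M) d * g with hg1def
  have hg10 : g1 ≠ 0 := mul_ne_zero ((_root_.map_ne_zero _).2 hd0) hg
  obtain ⟨gb, hgb0, hgb⟩ := m59fp_exists_redOf_good A hA M hqM hu1 hu2 hg10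
  set c' : Qb := c / d ^ m with hc'
  have e' : x = algebraMap Qb (Fbar M) c' * g1 ^ m := by
    rw [e, hg1def, hc', map_div₀, map_pow, mul_pow]
    have hd' : algebraMap Qb (Fbar M) d ≠ 0 := (_root_.map_ne_zero _).2 hd0
    field_simp
  have hgm : s44e_RedOf A M (g1 ^ m) (gb ^ m) := s44e_redOf_pow A M hgb m
  have hgm0 : gb ^ m ≠ 0 := pow_ne_zero _ hgb0
  have hinv := s44e_redOf_inv A M hgm hgm0
  have hcW : s44e_RedOf A M (algebraMap Qb (Fbar M) c') (xb * (gb ^ m)⁻¹) := by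
    have h1 := s44e_redOf_mul A M hx hinv
    have h2 : x * (g1 ^ m)⁻¹ = algebraMap Qb (Fbar M) c' := by
      have : g1 ^ m ≠ 0 := pow_ne_zero _ hg10
      rw [e', mul_assoc, mul_inv_cancel₀ this, mul_one]
    rwa [h2] at h1
  have hc'A : c' ∈ A := (s44pg_isBdd_const A c').1 hcW.1
  have hcc := s44e_redOf_const A M (N := M) c' hc'A
  have heq := s44e_redOf_unique A M hcW hcc
  refine ⟨residue ↥A ⟨c', hc'A⟩, gb, ?_, hgb0, ?_⟩
  · intro h0
    rw [h0, map_zero] at heq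
    have h3 := congrArg (· * (gb ^ m)) heq
    simp only [zero_mul] at h3
    rw [inv_mul_cancel_right₀ hgm0] at h3
    exact hxb h3
  · rw [← heq, inv_mul_cancel_right₀ hgm0]

end RedPow


/-! ### the function-field relations -/

section Main

variable (A : ValuationSubring Qb) {q : ℕ} [hq : Fact q.Prime] (hA : A.LiesOverPrime q)
  (M : ℕ) [NeZero M] [NeZero q] [NeZero (M * q)] (hqM : ¬ q ∣ M) {m : ℕ} (hm0 : m ≠ 0)
  (φ : s44e_kA A ≃+* s44e_kA A) (hφ : ∀ c : s44e_kA A, φ c = c ^ q)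

include hA hm0 hφ in
/-- **[DELTA-REL], function form**: for `z ∈ J₀(M q)[m]` killed by `(α_q)_*` and `(β_q)_*` there are
reductions `u₁` of a representative of `z` and `u₂` of a representative of `W z` with
`u₁ · σ(u₂) = c · g^m` and `σ(u₁) · u₂ = c' · g'^m` in `FF_M(kA)`. -/
theorem m59fp_fbar_rel {z : JZero (M * q)} (hz : m • z = 0)
    (h1 : s35p_P1J M q z = 0) (h2 : s35p_P2J M q z = 0) :
    ∃ (u₁ u₂ g g' : s44e_FF A M) (c c' : s44e_kA A),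
      twfr_Fbar A M q m z u₁ ∧ twfr_Fbar A M q m (s44w_WJ M q hq.out hqM z) u₂ ∧
      g ≠ 0 ∧ g' ≠ 0 ∧ c ≠ 0 ∧ c' ≠ 0 ∧
      u₁ * (ca_aut (s44e_kA A) M φ • u₂) = algebraMap (s44e_kA A) (s44e_FF A M) c * g ^ m ∧
      (ca_aut (s44e_kA A) M φ • u₁) * u₂ = algebraMap (s44e_kA A) (s44e_FF A M) c' * g' ^ m := by
  classical
  -- a normalised representative
  obtain ⟨D₀, f₀, hrep₀⟩ := s44pe_exists_rep m z hz
  obtain ⟨H, hH0, hf1, hf2, hw1, hw2⟩ := m59nf_normalise M q hq.out hqM A hA hm0 hrep₀.1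
  obtain ⟨D, hrep⟩ := m59nf_rep_mul_pow hrep₀ hH0
  generalize f₀ * H ^ m = f at hf1 hf2 hw1 hw2 hrep
  have hf0 : f ≠ 0 := hrep.1
  have hWf0 : ssm_al_Wbar M q hq.out hqM f ≠ 0 := by
    rw [Ne, map_eq_zero]; exact hf0
  -- the two norm relations
  obtain ⟨c, g, hg, hN⟩ : ∃ (c : Qb) (g : Fbar M), g ≠ 0 ∧
      s35pe_normAlong (heckeAlphaBar Qb M q) f = algebraMap Qb (Fbar M) c * g ^ m := by
    obtain ⟨-, hD, hfv⟩ := hrep
    rw [← hD] at h1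
    exact s35k_push_kummer (rt_isSepGen_jBar M) _ _ _ _ D hf0 hfv h1
  obtain ⟨c', g', hg', hNβ⟩ : ∃ (c : Qb) (g : Fbar M), g ≠ 0 ∧
      s35pe_normAlong (heckeBetaBar Qb M q) f = algebraMap Qb (Fbar M) c * g ^ m := by
    obtain ⟨-, hD, hfv⟩ := hrep
    rw [← hD] at h2
    exact s35k_push_kummer (rt_isSepGen_jBar M) _ _ _ _ D hf0 hfv h2
  -- the reductions
  obtain ⟨u₁, hu₁0, hu₁⟩ := s44e_exists_redOf_of_unit A hq.out hA M (s44rd_hmem A hA M hqM)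
    hf1 hf2 hf0
  obtain ⟨u₂, hu₂0, hu₂⟩ := s44e_exists_redOf_of_unit A hq.out hA M (s44rd_hmem A hA M hqM)
    hw1 hw2 hWf0
  have hrepf : s44f_Rep (M * q) m z f := ⟨hf0, D, hrep.2.1, hrep.2.2⟩
  have hF1 : twfr_Fbar A M q m z u₁ := ⟨hu₁0, f, hrepf, hu₁⟩
  have hF2 : twfr_Fbar A M q m (s44w_WJ M q hq.out hqM z) u₂ :=
    ⟨hu₂0, _, twf_w_rep_WJ M q hq.out hqM m hrepf, hu₂⟩
  obtain ⟨hb1, e1⟩ := hu₁
  obtain ⟨hb2, e2⟩ := hu₂
  obtain ⟨⟨hNα, eα⟩, ⟨hNβb, eβ⟩⟩ := m59fp_normRed M q hq.out hqM A hA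
    (φ : s44e_kA A →+* s44e_kA A) hφ f hb1 hb2
  have hσu₁ : ca_aut (s44e_kA A) M φ • u₁ ≠ 0 :=
    fun h0 => hu₁0 ((smul_eq_zero_iff_eq (ca_aut (s44e_kA A) M φ)).mp h0)
  have hσu₂ : ca_aut (s44e_kA A) M φ • u₂ ≠ 0 :=
    fun h0 => hu₂0 ((smul_eq_zero_iff_eq (ca_aut (s44e_kA A) M φ)).mp h0)
  have hredα : s44e_RedOf A M (s35pe_normAlong (heckeAlphaBar Qb M q) f)
      (u₁ * (ca_aut (s44e_kA A) M φ • u₂)) := by
    refine ⟨hNα, ?_⟩
    rw [eα, e1, e2]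
    rfl
  have hredβ : s44e_RedOf A M (s35pe_normAlong (heckeBetaBar Qb M q) f)
      ((ca_aut (s44e_kA A) M φ • u₁) * u₂) := by
    refine ⟨hNβb, ?_⟩
    rw [eβ, e1, e2]
    rfl
  obtain ⟨cb, gb, hcb, hgb, ea⟩ := m59fp_red_const_pow A hA M hqM hredα
    (mul_ne_zero hu₁0 hσu₂) hg hN
  obtain ⟨cb', gb', hcb', hgb', eb⟩ := m59fp_red_const_pow A hA M hqM hredβ
    (mul_ne_zero hσu₁ hu₂0) hg' hNβ
  exact ⟨u₁, u₂, gb, gb', cb, cb', hF1, hF2, hgb, hgb', hcb, hcb', ea, eb⟩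

end Main


/-! ### the class relations -/

section Class

variable (A : ValuationSubring Qb) {q : ℕ} [hq : Fact q.Prime] (hA : A.LiesOverPrime q)
  (M : ℕ) [NeZero M] [NeZero q] [NeZero (M * q)] (hqM : ¬ q ∣ M) {m : ℕ} (hm0 : m ≠ 0)
  (φ : s44e_kA A ≃+* s44e_kA A) (hφ : ∀ c : s44e_kA A, φ c = c ^ q)

include hA hm0 hφ in
/-- **[DELTA-REL]**: `δ(z) + σ • δ(W z) = 0` and `σ • δ(z) + δ(W z) = 0` for `z ∈ J₀(M q)[m]` killed by
`(α_q)_*`, `(β_q)_*`, with `m ∣ div f̄_z` and `m ∣ div f̄_{W z}`. -/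
theorem m59fp_delta_rel {z : JZero (M * q)} (hz : m • z = 0)
    (h1 : s35p_P1J M q z = 0) (h2 : s35p_P2J M q z = 0)
    (hd : ∀ Q : Place (s44e_kA A) (s44e_FF A M), (m : ℤ) ∣ Q.ord (twfr_fbar A M q m z))
    (hdW : ∀ Q : Place (s44e_kA A) (s44e_FF A M),
      (m : ℤ) ∣ Q.ord (twfr_fbar A M q m (s44w_WJ M q hq.out hqM z))) :
    twfr_delta A M q m z +
        ca_aut (s44e_kA A) M φ • twfr_delta A M q m (s44w_WJ M q hq.out hqM z) = 0 ∧
      ca_aut (s44e_kA A) M φ • twfr_delta A M q m z +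
        twfr_delta A M q m (s44w_WJ M q hq.out hqM z) = 0 := by
  have hm : 0 < m := Nat.pos_of_ne_zero hm0
  haveI : CharP (s44e_kA A) q := jcr_charP A hA
  haveI : IsAlgClosed (s44e_kA A) := jcr_isAlgClosed A
  haveI : HasPrincipalDivisors (s44e_kA A) (s44e_FF A M) :=
    rt_hasPrincipalDivisors (jcr_isSepGen (k := s44e_kA A) M hqM (jcr_rho A hA))
  have hzW : m • s44w_WJ M q hq.out hqM z = 0 := twf_w_WJ_tors M q hq.out hqM m z hz
  obtain ⟨u₁, u₂, g, g', c, c', hF1, hF2, hg, hg', hc, hc', ea, eb⟩ :=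
    m59fp_fbar_rel A hA M hqM hm0 φ hφ hz h1 h2
  have hmem := s44rd_hmem A hA M hqM
  -- divisibility for the actual reductions
  have hd₁ : ∀ Q : Place (s44e_kA A) (s44e_FF A M), (m : ℤ) ∣ Q.ord u₁ := fun Q =>
    (twfr_nuAll_eq_zero_iff A hq.out hA M hm hmem hF1 Q).1
      ((twfr_nuAll_eq_zero_iff A hq.out hA M hm hmem
        (twfr_fbar_spec A hq.out hA M hm hmem hz) Q).2 (hd Q))
  have hd₂ : ∀ Q : Place (s44e_kA A) (s44e_FF A M), (m : ℤ) ∣ Q.ord u₂ := fun Q =>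
    (twfr_nuAll_eq_zero_iff A hq.out hA M hm hmem hF2 Q).1
      ((twfr_nuAll_eq_zero_iff A hq.out hA M hm hmem
        (twfr_fbar_spec A hq.out hA M hm hmem hzW) Q).2 (hdW Q))
  obtain ⟨D₁, hD₁⟩ := s44rf_exists_div hm hF1.1 hd₁
  obtain ⟨D₂, hD₂⟩ := s44rf_exists_div hm hF2.1 hd₂
  rw [twfr_delta_eq A hq.out hA M hqM hm hmem hz hF1 D₁ hD₁,
    twfr_delta_eq A hq.out hA M hqM hm hmem hzW hF2 D₂ hD₂]
  refine ⟨m59fp_class_rel (ca_aut (s44e_kA A) M φ) hm c hF1.1 hF2.1 hg hc D₁ D₂ hD₁ hD₂ ea, ?_⟩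
  rw [add_comm]
  refine m59fp_class_rel (ca_aut (s44e_kA A) M φ) hm c' hF2.1 hF1.1 hg' hc' D₂ D₁ hD₂ hD₁ ?_
  rw [mul_comm]
  exact eb

include hA hm0 hφ in
/-- **`δ(z)` is `σ²`-fixed** (and so is `δ(W z)`). -/
theorem m59fp_delta_fixed {z : JZero (M * q)} (hz : m • z = 0)
    (h1 : s35p_P1J M q z = 0) (h2 : s35p_P2J M q z = 0)
    (hd : ∀ Q : Place (s44e_kA A) (s44e_FF A M), (m : ℤ) ∣ Q.ord (twfr_fbar A M q m z))
    (hdW : ∀ Q : Place (s44e_kA A) (s44e_FF A M),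
      (m : ℤ) ∣ Q.ord (twfr_fbar A M q m (s44w_WJ M q hq.out hqM z))) :
    (ca_aut (s44e_kA A) M φ ^ 2) • twfr_delta A M q m z = twfr_delta A M q m z ∧
      (ca_aut (s44e_kA A) M φ ^ 2) • twfr_delta A M q m (s44w_WJ M q hq.out hqM z) =
        twfr_delta A M q m (s44w_WJ M q hq.out hqM z) := by
  obtain ⟨r1, r2⟩ := m59fp_delta_rel A hA M hqM hm0 φ hφ hz h1 h2 hd hdW
  set σ := ca_aut (s44e_kA A) M φ with hσ
  set d₁ := twfr_delta A M q m z with hd₁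
  set d₂ := twfr_delta A M q m (s44w_WJ M q hq.out hqM z) with hd₂
  have e1 : d₁ = -(σ • d₂) := eq_neg_of_add_eq_zero_left r1
  have e2 : d₂ = -(σ • d₁) := eq_neg_of_add_eq_zero_right r2
  constructor
  · rw [pow_two, mul_smul]
    conv_rhs => rw [e1, e2]
    rw [smul_neg, neg_neg]
  · rw [pow_two, mul_smul]
    conv_rhs => rw [e2, e1]
    rw [smul_neg, neg_neg]

end Class


/-! ### the same with the hypotheses in the `ν = 0` shape (`twfr_nuAll … = 0` at ALL places) -/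

section Nu

variable (A : ValuationSubring Qb) {q : ℕ} [hq : Fact q.Prime] (hA : A.LiesOverPrime q)
  (M : ℕ) [NeZero M] [NeZero q] [NeZero (M * q)] (hqM : ¬ q ∣ M) {m : ℕ} (hm : 0 < m)
  (φ : s44e_kA A ≃+* s44e_kA A) (hφ : ∀ c : s44e_kA A, φ c = c ^ q)

omit hq [NeZero q] in
/-- `ν_Q(z) = 0 ⟺ m ∣ ord_Q f̄_z` (definitional). -/
theorem m59fp_nuAll_iff (z : JZero (M * q)) (Q : Place (s44e_kA A) (s44e_FF A M)) :
    twfr_nuAll A M q m z Q = 0 ↔ (m : ℤ) ∣ Q.ord (twfr_fbar A M q m z) :=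
  ZMod.intCast_zmod_eq_zero_iff_dvd _ _

include hA hm hφ in
/-- [DELTA-REL] with `ν = 0` hypotheses. -/
theorem m59fp_delta_rel_nu {z : JZero (M * q)} (hz : m • z = 0)
    (h1 : s35p_P1J M q z = 0) (h2 : s35p_P2J M q z = 0)
    (hν : ∀ Q : Place (s44e_kA A) (s44e_FF A M), twfr_nuAll A M q m z Q = 0)
    (hνW : ∀ Q : Place (s44e_kA A) (s44e_FF A M),
      twfr_nuAll A M q m (s44w_WJ M q hq.out hqM z) Q = 0) :
    twfr_delta A M q m z +
        ca_aut (s44e_kA A) M φ • twfr_delta A M q m (s44w_WJ M q hq.out hqM z) = 0 ∧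
      ca_aut (s44e_kA A) M φ • twfr_delta A M q m z +
        twfr_delta A M q m (s44w_WJ M q hq.out hqM z) = 0 :=
  m59fp_delta_rel A hA M hqM hm.ne' φ hφ hz h1 h2
    (fun Q => (m59fp_nuAll_iff A M z Q).1 (hν Q))
    (fun Q => (m59fp_nuAll_iff A M _ Q).1 (hνW Q))

include hA hm hφ in
/-- **`δ(z)` is `σ²`-fixed**, `ν = 0` hypotheses. -/
theorem m59fp_delta_fixed_nu {z : JZero (M * q)} (hz : m • z = 0)
    (h1 : s35p_P1J M q z = 0) (h2 : s35p_P2J M q z = 0)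
    (hν : ∀ Q : Place (s44e_kA A) (s44e_FF A M), twfr_nuAll A M q m z Q = 0)
    (hνW : ∀ Q : Place (s44e_kA A) (s44e_FF A M),
      twfr_nuAll A M q m (s44w_WJ M q hq.out hqM z) Q = 0) :
    (ca_aut (s44e_kA A) M φ ^ 2) • twfr_delta A M q m z = twfr_delta A M q m z :=
  (m59fp_delta_fixed A hA M hqM hm.ne' φ hφ hz h1 h2
    (fun Q => (m59fp_nuAll_iff A M z Q).1 (hν Q))
    (fun Q => (m59fp_nuAll_iff A M _ Q).1 (hνW Q))).1

include hA hm hφ in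
/-- **`δ(W z)` is `σ²`-fixed**, `ν = 0` hypotheses. -/
theorem m59fp_delta_fixed_nu_W {z : JZero (M * q)} (hz : m • z = 0)
    (h1 : s35p_P1J M q z = 0) (h2 : s35p_P2J M q z = 0)
    (hν : ∀ Q : Place (s44e_kA A) (s44e_FF A M), twfr_nuAll A M q m z Q = 0)
    (hνW : ∀ Q : Place (s44e_kA A) (s44e_FF A M),
      twfr_nuAll A M q m (s44w_WJ M q hq.out hqM z) Q = 0) :
    (ca_aut (s44e_kA A) M φ ^ 2) • twfr_delta A M q m (s44w_WJ M q hq.out hqM z) =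
      twfr_delta A M q m (s44w_WJ M q hq.out hqM z) :=
  (m59fp_delta_fixed A hA M hqM hm.ne' φ hφ hz h1 h2
    (fun Q => (m59fp_nuAll_iff A M z Q).1 (hν Q))
    (fun Q => (m59fp_nuAll_iff A M _ Q).1 (hνW Q))).2

end Nu

end Fermat.Agent.M59
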