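/-
M59 / Sink B, leaf 4, cell [FIN-PIC] (helper29): FINITELY MANY FROBENIUS-FIXED CLASSES OF `Pic⁰`
OF THE REDUCED MODULAR FUNCTION FIELD.  Prefix `m59fpf_`.

Adapter between block (Z) of S27 (`s27z_finite_fixedPic`: a `Q`-Frobenius of a function field over
an algebraically closed field of characteristic `p` has finitely many fixed classes in `Pic⁰`) and
the reduced modular function field `F̃_N = modularFunctionFieldFullC K N = lg_F K N`:

* `m59fpf_sigma K N q` : the coefficientwise `q`-Frobenius of `F̃_N` as an element of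
  `s27z_stab K F̃_N` (`= ca_ringAut K N (frobeniusEquiv K q)`, JT3/ES/CoeffAut.lean);
* `m59fpf_isFrob` : it is a `q`-Frobenius (`K` algebraic over the prime field);
* `m59fpf_finite_fixed` : `σ_q ^ e`, `e ≥ 1`, has finitely many fixed classes in `Pic⁰`;
* `m59fpf_system_zero` : a `p`-power compatible system of `σ_q ^ e`-fixed classes is zero;
* the instance for `K = kA` (`A` a valuation subring of `Q̄` over `q`, `q ∤ N`).
-/
import Mathlib
import Fermat.Agent.S27.Zeta.FixedPic
import Fermat.Agent.JT3.ES.CoeffAut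
import Fermat.Agent.JT3.S18.ConstRed
import Fermat.Agent.JT3.PlaceMap.BaseField

set_option autoImplicit false
set_option linter.unusedSectionVars false
set_option linter.unusedVariables false
set_option linter.style.haveILetI false

noncomputable section

namespace Fermat.Agent.M59

open ModularCurve AlgebraicCurve IntermediateField IsLocalRing
open Fermat.Agent.JT3 Fermat.Agent.S27 Fermat.Agent.S24

/-! ### the coefficientwise Frobenius -/

section Generic

variable (K : Type*) [Field K] (N : ℕ) (q : ℕ) [hq : Fact q.Prime] [CharP K q] [PerfectRing K q]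

/-- the coefficientwise `q`-Frobenius of `F̃_N`, as a constant-preserving ring automorphism. -/
def m59fpf_sigma : s27z_stab K (modularFunctionFieldFullC K N) :=
  ⟨ca_ringAut K N (frobeniusEquiv K q), fun c =>
    ⟨⟨frobeniusEquiv K q c, ca_ringAut_algebraMap K N _ c⟩,
      ⟨(frobeniusEquiv K q).symm c, by
        show (ca_ringAut K N (frobeniusEquiv K q)).symm
          (algebraMap K (modularFunctionFieldFullC K N) c) = _
        rw [RingEquiv.symm_apply_eq, ca_ringAut_algebraMap, RingEquiv.apply_symm_apply]⟩⟩⟩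

theorem m59fpf_sigma_coe (x : modularFunctionFieldFullC K N) :
    (((m59fpf_sigma K N q : s27z_stab K (modularFunctionFieldFullC K N)) :
      RingAut (modularFunctionFieldFullC K N)) x : LaurentSeries K) =
      coeffMap (frobenius K q) (x : LaurentSeries K) := rfl

theorem m59fpf_sigma_const (c : K) :
    ((m59fpf_sigma K N q : s27z_stab K (modularFunctionFieldFullC K N)) :
      RingAut (modularFunctionFieldFullC K N))
        (algebraMap K (modularFunctionFieldFullC K N) c) =
      algebraMap K (modularFunctionFieldFullC K N) (c ^ q) :=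
  ca_ringAut_algebraMap K N (frobeniusEquiv K q) c

/-- the generators `j(q^d)`, `d ∣ N`, are fixed. -/
theorem m59fpf_sigma_gen {d : ℕ} [NeZero d] (hd : d ∣ N) :
    ((m59fpf_sigma K N q : s27z_stab K (modularFunctionFieldFullC K N)) :
      RingAut (modularFunctionFieldFullC K N))
        ⟨qExpand K d (jqModC K), jqModCd_mem_full K N hd⟩ =
      ⟨qExpand K d (jqModC K), jqModCd_mem_full K N hd⟩ :=
  Subtype.ext (ca_coeffMap_gen K (frobenius K q) d)

/-! ### periodicity -/

/-- powers of the Frobenius on constants. -/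
theorem m59fpf_sigma_pow_const (n : ℕ) (c : K) :
    (((m59fpf_sigma K N q : s27z_stab K (modularFunctionFieldFullC K N)) :
      RingAut (modularFunctionFieldFullC K N)) ^ n)
        (algebraMap K (modularFunctionFieldFullC K N) c) =
      algebraMap K (modularFunctionFieldFullC K N) (c ^ (q ^ n)) := by
  induction n generalizing c with
  | zero => simp
  | succ n ih =>
      rw [pow_succ, RingAut.mul_apply, m59fpf_sigma_const, ih, ← pow_mul, pow_succ, mul_comm]

end Generic

section Per

variable {R : Type*} [Field R] (T : R →+* R)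

/-- `f` is fixed by a positive power of the ring endomorphism `T`. -/
def m59fpf_Per (f : R) : Prop := ∃ n : ℕ, 0 < n ∧ (T ^ n) f = f

theorem m59fpf_pow_fixed {T : R →+* R} {f : R} (h : T f = f) (j : ℕ) : (T ^ j) f = f := by
  induction j with
  | zero => rfl
  | succ j ih => rw [pow_succ, RingHom.mul_def, RingHom.comp_apply, h, ih]

theorem m59fpf_per_common {f g : R} (hf : m59fpf_Per T f) (hg : m59fpf_Per T g) :
    ∃ n : ℕ, 0 < n ∧ (T ^ n) f = f ∧ (T ^ n) g = g := by
  obtain ⟨a, ha, hfa⟩ := hf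
  obtain ⟨b, hb, hgb⟩ := hg
  refine ⟨a * b, Nat.mul_pos ha hb, ?_, ?_⟩
  · rw [pow_mul]
    exact m59fpf_pow_fixed hfa b
  · rw [mul_comm, pow_mul]
    exact m59fpf_pow_fixed hgb a

theorem m59fpf_per_add {f g : R} (hf : m59fpf_Per T f) (hg : m59fpf_Per T g) :
    m59fpf_Per T (f + g) := by
  obtain ⟨n, hn, h1, h2⟩ := m59fpf_per_common T hf hg
  exact ⟨n, hn, by rw [map_add, h1, h2]⟩

theorem m59fpf_per_mul {f g : R} (hf : m59fpf_Per T f) (hg : m59fpf_Per T g) :
    m59fpf_Per T (f * g) := by
  obtain ⟨n, hn, h1, h2⟩ := m59fpf_per_common T hf hg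
  exact ⟨n, hn, by rw [map_mul, h1, h2]⟩

theorem m59fpf_per_inv {f : R} (hf : m59fpf_Per T f) : m59fpf_Per T f⁻¹ := by
  obtain ⟨n, hn, h1⟩ := hf
  exact ⟨n, hn, by rw [map_inv₀, h1]⟩

end Per

section Frob

variable (K : Type*) [Field K] (N : ℕ) (q : ℕ) [hq : Fact q.Prime] [CharP K q] [PerfectRing K q]

/-- powers of the coefficientwise Frobenius on constant series. -/
theorem m59fpf_coeffMap_pow_const (n : ℕ) (c : K) :
    ((coeffMap (frobenius K q)) ^ n) (algebraMap K (LaurentSeries K) c) =
      algebraMap K (LaurentSeries K) (c ^ (q ^ n)) := by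
  induction n generalizing c with
  | zero => simp
  | succ n ih =>
      rw [pow_succ, RingHom.mul_def, RingHom.comp_apply, ca_coeffMap_algebraMap, ih,
        frobenius_def, ← pow_mul, pow_succ, mul_comm]

/-- every series of `F̃_N` is fixed by a power of the coefficientwise Frobenius, if the constants
are. -/
theorem m59fpf_periodic_series (hk : ∀ c : K, ∃ n : ℕ, 0 < n ∧ c ^ (q ^ n) = c)
    {x : LaurentSeries K} (hx : x ∈ modularFunctionFieldFullC K N) :
    m59fpf_Per (coeffMap (frobenius K q)) x := by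
  rw [modularFunctionFieldFullC] at hx
  induction hx using IntermediateField.adjoin_induction with
  | mem y hy =>
    obtain ⟨d, hd, hdN, rfl⟩ := hy
    haveI := hd
    exact ⟨1, one_pos, by rw [pow_one]; exact ca_coeffMap_gen K (frobenius K q) d⟩
  | algebraMap c =>
    obtain ⟨n, hn, hc⟩ := hk c
    exact ⟨n, hn, by rw [m59fpf_coeffMap_pow_const, hc]⟩
  | add y z _ _ h1 h2 => exact m59fpf_per_add _ h1 h2
  | inv y _ h1 => exact m59fpf_per_inv _ h1
  | mul y z _ _ h1 h2 => exact m59fpf_per_mul _ h1 h2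

/-- powers of `σ_q` on series. -/
theorem m59fpf_sigma_pow_coe (n : ℕ) (f : modularFunctionFieldFullC K N) :
    ((((m59fpf_sigma K N q : s27z_stab K (modularFunctionFieldFullC K N)) :
      RingAut (modularFunctionFieldFullC K N)) ^ n) f : LaurentSeries K) =
      ((coeffMap (frobenius K q)) ^ n) (f : LaurentSeries K) := by
  induction n generalizing f with
  | zero => rfl
  | succ n ih =>
      rw [pow_succ, RingAut.mul_apply, ih, m59fpf_sigma_coe, pow_succ, RingHom.mul_def,
        RingHom.comp_apply]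

/-- every element of `F̃_N` is fixed by a power of `σ_q`. -/
theorem m59fpf_periodic (hk : ∀ c : K, ∃ n : ℕ, 0 < n ∧ c ^ (q ^ n) = c)
    (f : modularFunctionFieldFullC K N) :
    ∃ n : ℕ, 0 < n ∧ (((m59fpf_sigma K N q : s27z_stab K (modularFunctionFieldFullC K N)) :
      RingAut (modularFunctionFieldFullC K N)) ^ n) f = f := by
  obtain ⟨n, hn, h⟩ := m59fpf_periodic_series K N q hk f.2
  exact ⟨n, hn, Subtype.ext (by rw [m59fpf_sigma_pow_coe, h])⟩

/-- **the coefficientwise Frobenius is a `q`-Frobenius** in the sense of S27 / (Z). -/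
theorem m59fpf_isFrob (hk : ∀ c : K, ∃ n : ℕ, 0 < n ∧ c ^ (q ^ n) = c) :
    s27z_IsFrob q (m59fpf_sigma K N q) :=
  ⟨m59fpf_sigma_const K N q, m59fpf_periodic K N q hk⟩

variable [IsAlgClosed K] {x : modularFunctionFieldFullC K N} (hx : rt_IsSepGen K x)

/-- **finitely many classes of `Pic⁰(F̃_N)` are fixed by `σ_q ^ e`, `e ≥ 1`.** -/
theorem m59fpf_finite_fixed (hk : ∀ c : K, ∃ n : ℕ, 0 < n ∧ c ^ (q ^ n) = c) {e : ℕ}
    (he : 0 < e) :
    Finite {c : Pic0 K (modularFunctionFieldFullC K N) //
      s27z_picMap hx (m59fpf_sigma K N q ^ e) c = c} :=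
  s27z_finite_fixedPic hx he ((m59fpf_isFrob K N q hk).pow e)

end Frob

/-! ### compatible systems in a group with finitely many fixed points -/

/-- a `p`-power compatible system of `p`-power torsion fixed points of an additive endomorphism
with finitely many fixed points is zero. -/
theorem m59fpf_system_zero_abs {P : Type*} [AddCommGroup P] (φ : P →+ P)
    (hfin : {c : P | φ c = c}.Finite) (p : ℕ) (hp : p.Prime) (c : ℕ → P)
    (hc : ∀ n, p • c (n + 1) = c n) (htors : ∀ n, ∃ m : ℕ, p ^ m • c n = 0)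
    (hfix : ∀ n, φ (c n) = c n) (n : ℕ) : c n = 0 := by
  classical
  set G : AddSubgroup P := AddMonoidHom.eqLocus φ (AddMonoidHom.id P) with hG
  have hGmem : ∀ y : P, y ∈ G ↔ φ y = y := fun y => Iff.rfl
  haveI : Finite G := hfin.subset (fun y hy => hy) |>.to_subtype
  set M := Nat.card G with hM
  have hMpos : 0 < M := Nat.card_pos
  -- iterate the compatibility
  have hiter : ∀ k n, p ^ k • c (n + k) = c n := by
    intro k
    induction k with
    | zero => intro n; simp
    | succ k ih =>
        intro n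
        rw [pow_succ, mul_smul, ← add_assoc, hc, ih]
  rw [← hiter M n]
  -- the order of `y := c (n + M)` is a power `p ^ j` with `j ≤ M`
  set y := c (n + M) with hy
  obtain ⟨m, hm⟩ := htors (n + M)
  have hdvd : addOrderOf y ∣ p ^ m := addOrderOf_dvd_of_nsmul_eq_zero hm
  obtain ⟨j, -, hj⟩ := (Nat.dvd_prime_pow hp).1 hdvd
  have hyG : y ∈ G := (hGmem y).2 (hfix _)
  have hcard : addOrderOf y ∣ M := by
    have h1 : addOrderOf (⟨y, hyG⟩ : G) ∣ Nat.card G := addOrderOf_dvd_natCard _
    rwa [← AddSubgroup.addOrderOf_coe] at h1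
  have hle : p ^ j ≤ M := by
    rw [← hj]
    exact Nat.le_of_dvd hMpos hcard
  have hjM : j ≤ M := (Nat.lt_pow_self hp.one_lt).le.trans hle
  have h0 : p ^ j • y = 0 := by
    rw [← hj]
    exact addOrderOf_nsmul_eq_zero y
  obtain ⟨t, ht⟩ := Nat.exists_eq_add_of_le hjM
  rw [ht, pow_add, mul_comm, mul_smul, h0, smul_zero]

/-! ### comparison of the S27 action with the Prelude action on `Pic⁰` -/

section Compare

variable {K F : Type*} [Field K] [Field F] [Algebra K F]

open scoped Pointwise

/-- the two actions on places agree. -/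
theorem m59fpf_place_smul_eq (σ : s27z_stab K F) (g : SemilinearAut K F)
    (h : ∀ f : F, (σ : RingAut F) f = g • f) (v : Place K F) : σ • v = g • v := by
  ext1
  rw [s27z_smul_toValuationSubring, SemilinearAut.smul_toValuationSubring]
  ext y
  constructor
  · rintro ⟨z, hz, rfl⟩
    exact ⟨z, hz, (h z).symm⟩
  · rintro ⟨z, hz, rfl⟩
    exact ⟨z, hz, h z⟩

/-- the two actions on divisors agree. -/
theorem m59fpf_divisor_smul_eq (σ : s27z_stab K F) (g : SemilinearAut K F)
    (h : ∀ f : F, (σ : RingAut F) f = g • f) (D : Divisor K F) : σ • D = g • D := by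
  rw [s27z_divisor_smul_def, SemilinearAut.divisor_smul_def]
  congr 1
  funext v
  exact m59fpf_place_smul_eq σ g h v

variable [IsAlgClosed K] {x : F} (hx : rt_IsSepGen K x)

/-- the two actions on `Pic⁰` agree. -/
theorem m59fpf_picMap_eq_smul (σ : s27z_stab K F) (g : SemilinearAut K F)
    (h : ∀ f : F, (σ : RingAut F) f = g • f) (c : Pic0 K F) : s27z_picMap hx σ c = g • c := by
  obtain ⟨D, rfl⟩ := Pic0.mk_surjective c
  rw [s27z_picMap_mk, SemilinearAut.pic0_smul_mk]
  refine congrArg Pic0.mk (Subtype.ext ?_)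
  rw [s27z_coe_degZeroHom, SemilinearAut.coe_degZeroSMulHom]
  exact m59fpf_divisor_smul_eq σ g h _

end Compare

/-! ### the Prelude (`SemilinearAut`) form and the compatible systems -/

section Smul

variable (K : Type*) [Field K] (N : ℕ) (q : ℕ) [hq : Fact q.Prime] [CharP K q] [PerfectRing K q]

/-- `σ_q ^ e` is the action of `(ca_aut K N Frob_q) ^ e`. -/
theorem m59fpf_sigma_pow_eq_smul (e : ℕ) (f : modularFunctionFieldFullC K N) :
    (((m59fpf_sigma K N q ^ e : s27z_stab K (modularFunctionFieldFullC K N)) :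
      RingAut (modularFunctionFieldFullC K N))) f =
      (ca_aut K N (frobeniusEquiv K q)) ^ e • f := by
  induction e generalizing f with
  | zero => rw [pow_zero, pow_zero, one_smul]; rfl
  | succ e ih =>
      rw [pow_succ, pow_succ, mul_smul, ← ih]
      rfl

variable [IsAlgClosed K] {x : modularFunctionFieldFullC K N} (hx : rt_IsSepGen K x)

include hx in
/-- **finitely many classes of `Pic⁰(F̃_N)` are fixed by `(ca_aut K N Frob_q) ^ e`, `e ≥ 1`**
(Prelude action of `SemilinearAut` on `Pic⁰`). -/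
theorem m59fpf_finite_fixed_smul (hk : ∀ c : K, ∃ n : ℕ, 0 < n ∧ c ^ (q ^ n) = c) {e : ℕ}
    (he : 0 < e) :
    {c : Pic0 K (modularFunctionFieldFullC K N) |
      (ca_aut K N (frobeniusEquiv K q)) ^ e • c = c}.Finite := by
  have h0 := m59fpf_finite_fixed K N q hx hk he
  have h : {c : Pic0 K (modularFunctionFieldFullC K N) |
      s27z_picMap hx (m59fpf_sigma K N q ^ e) c = c}.Finite := Set.finite_coe_iff.1 h0
  refine h.subset fun c hc => ?_
  show s27z_picMap hx (m59fpf_sigma K N q ^ e) c = c
  rw [m59fpf_picMap_eq_smul hx _ _ (m59fpf_sigma_pow_eq_smul K N q e) c]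
  exact hc

include hx in
/-- **a `p`-power compatible system of `p`-power torsion classes of `Pic⁰(F̃_N)` fixed by
`(ca_aut K N Frob_q) ^ e`, `e ≥ 1`, is zero.** -/
theorem m59fpf_system_zero (hk : ∀ c : K, ∃ n : ℕ, 0 < n ∧ c ^ (q ^ n) = c) {e : ℕ}
    (he : 0 < e) (p : ℕ) (hp : p.Prime) (c : ℕ → Pic0 K (modularFunctionFieldFullC K N))
    (hc : ∀ n, p • c (n + 1) = c n) (htors : ∀ n, ∃ m : ℕ, p ^ m • c n = 0)
    (hfix : ∀ n, (ca_aut K N (frobeniusEquiv K q)) ^ e • c n = c n) (n : ℕ) : c n = 0 :=
  m59fpf_system_zero_abs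
    (DistribSMul.toAddMonoidHom (Pic0 K (modularFunctionFieldFullC K N))
      ((ca_aut K N (frobeniusEquiv K q)) ^ e))
    (m59fpf_finite_fixed_smul K N q hx hk he) p hp c hc htors hfix n

end Smul

/-! ### the instance `K = kA` -/

section Inst

local notation "Qb" => AlgebraicClosure ℚ

variable (A : ValuationSubring Qb) {q : ℕ} [hq : Fact q.Prime] (hA : A.LiesOverPrime q)

include hA in
/-- the residue field of `A` is algebraic over the prime field: every element is fixed by a power
of the Frobenius. -/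
theorem m59fpf_hk (c : ResidueField ↥A) : ∃ n : ℕ, 0 < n ∧ c ^ (q ^ n) = c := by
  rcases eq_or_ne c 0 with rfl | hc
  · exact ⟨1, one_pos, zero_pow (pow_ne_zero _ hq.out.ne_zero)⟩
  obtain ⟨a, rfl⟩ := IsLocalRing.residue_surjective c
  obtain ⟨m, hm, hpow⟩ := ebf_residue_pow_eq_one A q hA a hc
  have hm0 : m ≠ 0 := by
    rintro rfl
    exact hm (dvd_zero q)
  have hcop : Nat.Coprime q m := (Nat.Prime.coprime_iff_not_dvd hq.out).2 hm
  have h1 : q ^ Nat.totient m ≡ 1 [MOD m] := Nat.ModEq.pow_totient hcop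
  refine ⟨Nat.totient m, Nat.totient_pos.2 (Nat.pos_of_ne_zero hm0), ?_⟩
  have hge : 1 ≤ q ^ Nat.totient m := Nat.one_le_pow _ _ hq.out.pos
  have h2 : m ∣ q ^ Nat.totient m - 1 := (Nat.modEq_iff_dvd' hge).1 h1.symm
  obtain ⟨t, ht⟩ := h2
  have h3 : q ^ Nat.totient m = m * t + 1 := by omega
  rw [h3, pow_succ, pow_mul, hpow, one_pow, one_mul]

variable (N : ℕ) [NeZero N] (hqN : ¬ q ∣ N)

include hA hqN in
/-- **finitely many classes of `J₀(N)_{kA}` are fixed by the `e`-th power of the coefficientwise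
`q`-Frobenius**, `e ≥ 1`, `q ∤ N` (`e = 2`: the `𝔽_{q²}`-rational classes). -/
theorem m59fpf_finite_fixed_kA {e : ℕ} (he : 0 < e) :
    haveI := jcr_isAlgClosed A
    haveI := jcr_charP A hA
    {c : JZeroC (ResidueField ↥A) N |
      (ca_aut (ResidueField ↥A) N (frobeniusEquiv (ResidueField ↥A) q)) ^ e • c = c}.Finite := by
  haveI := jcr_isAlgClosed A
  haveI := jcr_charP A hA
  exact m59fpf_finite_fixed_smul (ResidueField ↥A) N q (jcr_isSepGen N hqN (jcr_rho A hA))
    (m59fpf_hk A hA) he

include hA hqN in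
/-- **a `p`-power compatible system of `p`-power torsion classes of `J₀(N)_{kA}` fixed by the
`e`-th power of the coefficientwise `q`-Frobenius is zero.** -/
theorem m59fpf_system_zero_kA {e : ℕ} (he : 0 < e) (p : ℕ) (hp : p.Prime)
    (c : ℕ → JZeroC (ResidueField ↥A) N) (hc : ∀ n, p • c (n + 1) = c n)
    (htors : ∀ n, ∃ m : ℕ, p ^ m • c n = 0)
    (hfix : haveI := jcr_isAlgClosed A
      haveI := jcr_charP A hA
      ∀ n, (ca_aut (ResidueField ↥A) N (frobeniusEquiv (ResidueField ↥A) q)) ^ e • c n = c n)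
    (n : ℕ) : c n = 0 := by
  haveI := jcr_isAlgClosed A
  haveI := jcr_charP A hA
  exact m59fpf_system_zero (ResidueField ↥A) N q (jcr_isSepGen N hqN (jcr_rho A hA))
    (m59fpf_hk A hA) he p hp c hc htors hfix n

end Inst

end Fermat.Agent.M59
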